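import Fermat.Statements.S02

set_option autoImplicit false
open FreyPackage

namespace Fermat.Agent.S02

/-- Coprime case, `b` even, `a` odd: fix `a` mod 4 by a sign change. -/
theorem FA_S02_of_coprime_even {a b c : ℤ} (ha : a ≠ 0) (hb : b ≠ 0) (hc : c ≠ 0)
    (hab : gcd a b = 1) (p : ℕ) (pp : p.Prime) (hp5 : 5 ≤ p) (H : a ^ p + b ^ p = c ^ p)
    (hb2 : (2 : ℤ) ∣ b) : Nonempty FreyPackage := by
  have p_odd : Odd p := pp.odd_of_ne_two (by omega)
  have hb2' : (b : ZMod 2) = 0 := (ZMod.intCast_zmod_eq_zero_iff_dvd b 2).2 hb2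
  -- `a` is odd
  have ha_odd : ¬ (2 : ℤ) ∣ a := by
    intro h2a
    have h2 : (2 : ℤ) ∣ gcd a b := dvd_gcd h2a hb2
    rw [hab] at h2
    have := Int.eq_one_of_dvd_one (by norm_num) h2
    omega
  have ha4 : a % 4 = 1 ∨ a % 4 = 3 := by omega
  rcases ha4 with h1 | h3
  · -- use `(-a, -b, -c)`
    refine ⟨⟨-a, -b, -c, neg_ne_zero.2 ha, neg_ne_zero.2 hb, neg_ne_zero.2 hc, p, pp, hp5, ?_, ?_,
      ?_, ?_⟩⟩
    · rw [p_odd.neg_pow, p_odd.neg_pow, p_odd.neg_pow, ← H]; ring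
    · rw [← Int.coe_gcd] at hab ⊢
      rw [Int.neg_gcd, Int.gcd_neg]; exact hab
    · have h4 : ((-a : ℤ) : ZMod 4) = ((3 : ℤ) : ZMod 4) := by
        rw [ZMod.intCast_eq_intCast_iff_dvd_sub]
        have : (3 : ℤ) - (-a) = 4 * (a / 4 + 1) := by omega
        simp only [Nat.cast_ofNat]
        rw [this]
        exact dvd_mul_right _ _
      simpa using h4
    · have : ((-b : ℤ) : ZMod 2) = 0 := by
        rw [ZMod.intCast_zmod_eq_zero_iff_dvd]
        simpa using hb2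
      simpa using this
  · refine ⟨⟨a, b, c, ha, hb, hc, p, pp, hp5, H, hab, ?_, hb2'⟩⟩
    have h4 : ((a : ℤ) : ZMod 4) = ((3 : ℤ) : ZMod 4) := by
      rw [ZMod.intCast_eq_intCast_iff_dvd_sub]
      have : (3 : ℤ) - a = 4 * (-(a / 4)) := by omega
      simp only [Nat.cast_ofNat]
      rw [this]
      exact dvd_mul_right _ _
    simpa using h4

/-- Coprime case. -/
theorem FA_S02_of_coprime {a b c : ℤ} (ha : a ≠ 0) (hb : b ≠ 0) (hc : c ≠ 0)
    (hab : gcd a b = 1) (p : ℕ) (pp : p.Prime) (hp5 : 5 ≤ p) (H : a ^ p + b ^ p = c ^ p) :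
    Nonempty FreyPackage := by
  have p_odd : Odd p := pp.odd_of_ne_two (by omega)
  have hp0 : p ≠ 0 := pp.ne_zero
  by_cases hb2 : (2 : ℤ) ∣ b
  · exact FA_S02_of_coprime_even ha hb hc hab p pp hp5 H hb2
  by_cases ha2 : (2 : ℤ) ∣ a
  · exact FA_S02_of_coprime_even hb ha hc (by rwa [gcd_comm]) p pp hp5 (by rwa [add_comm]) ha2
  -- both odd: `c` is even
  have hc2 : (2 : ℤ) ∣ c := by
    have hap : ¬ (2 : ℤ) ∣ a ^ p := fun h => ha2 (Int.prime_two.dvd_of_dvd_pow h)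
    have hbp : ¬ (2 : ℤ) ∣ b ^ p := fun h => hb2 (Int.prime_two.dvd_of_dvd_pow h)
    have hcp : (2 : ℤ) ∣ c ^ p := by
      rw [← H]; omega
    exact Int.prime_two.dvd_of_dvd_pow hcp
  have hac : gcd a c = 1 := by rw [← gcdab_eq_gcdac pp.pos H, hab]
  refine FA_S02_of_coprime_even (a := a) (b := -c) (c := -b) ha (neg_ne_zero.2 hc)
    (neg_ne_zero.2 hb) (by rw [← Int.coe_gcd] at hac ⊢; rw [Int.gcd_neg]; exact hac) p pp hp5 ?_ (by simpa using hc2)
  rw [p_odd.neg_pow, p_odd.neg_pow, ← H]; ring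

theorem result (a b c : ℤ) (ha : a ≠ 0) (hb : b ≠ 0) (hc : c ≠ 0) (p : ℕ) (pp : p.Prime) (hp5 : 5 ≤ p) (H : a ^ p + b ^ p = c ^ p) : Nonempty FreyPackage := by
  have hp0 : p ≠ 0 := pp.ne_zero
  -- divide by the gcd
  obtain ⟨a', b', hcop, ha', hb'⟩ := Int.exists_gcd_one (m := a) (n := b)
    (Int.gcd_pos_of_ne_zero_left b ha)
  set d : ℤ := (Int.gcd a b : ℤ) with hd
  have hd0 : d ≠ 0 := by
    rw [hd]; exact_mod_cast (Int.gcd_pos_of_ne_zero_left b ha).ne'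
  have hdc : d ∣ c := by
    rw [← Int.pow_dvd_pow_iff hp0, ← H]
    apply dvd_add <;> rw [Int.pow_dvd_pow_iff hp0]
    · exact Int.gcd_dvd_left a b
    · exact Int.gcd_dvd_right a b
  obtain ⟨c', hc'⟩ := hdc
  have ha'0 : a' ≠ 0 := by rintro rfl; apply ha; rw [ha']; simp
  have hb'0 : b' ≠ 0 := by rintro rfl; apply hb; rw [hb']; simp
  have hc'0 : c' ≠ 0 := by rintro rfl; apply hc; rw [hc']; simp
  have H' : a' ^ p + b' ^ p = c' ^ p := by
    have hdp : d ^ p ≠ 0 := pow_ne_zero _ hd0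
    apply mul_left_cancel₀ hdp
    have : a ^ p + b ^ p = c ^ p := H
    rw [ha', hb', hc'] at this
    linear_combination this
  have hcop' : gcd a' b' = 1 := by
    rw [← Int.coe_gcd, hcop]; rfl
  exact FA_S02_of_coprime ha'0 hb'0 hc'0 hcop' p pp hp5 H'

end Fermat.Agent.S02
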