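import Fermat.Statements.S05
import Fermat.Agent.S05.FreyGood
import Fermat.Agent.S05.FreyMult

set_option autoImplicit false
open WeierstrassCurve WeierstrassCurve.Affine WeierstrassCurve.Affine.Point
open CuspForm ModularFormClass UpperHalfPlane
open FreyPackage

namespace Fermat.Agent.S05

theorem result (P : FreyPackage) {q : ℕ} (hq : q.Prime) (hq2 : q ≠ 2) (hqp : q ≠ P.p) : P.GaloisRepUnramifiedAt q := by
  intro A hA σ hσ x
  by_cases hqabc : (q : ℤ) ∣ P.a * P.b * P.c
  · obtain ⟨Q, hQ⟩ := x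
    have hQ' : P.p • Q = 0 := by
      rw [Submodule.mem_torsionBy_iff] at hQ
      rw [← hQ]
      exact (natCast_zsmul Q P.p).symm
    apply Subtype.ext
    have hqi := Nat.prime_iff_prime_int.mp hq
    rcases hqi.dvd_or_dvd hqabc with hab | hc
    · rcases hqi.dvd_or_dvd hab with ha | hb
      · exact FA_S05_frey_mult_a P hq hq2 hqp ha A hA σ hσ Q hQ'
      · exact FA_S05_frey_mult_b P hq hq2 hqp hb A hA σ hσ Q hQ'
    · exact FA_S05_frey_mult_c P hq hq2 hqp hc A hA σ hσ Q hQ'
  · exact FA_S05_frey_good P hq hq2 hqp hqabc A hA σ hσ x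

end Fermat.Agent.S05
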