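import Fermat.Statements.S07
import Fermat.Prelude.Thm_ModularForm_sturm_bound_Gamma0

set_option autoImplicit false
open WeierstrassCurve WeierstrassCurve.Affine WeierstrassCurve.Affine.Point
open CuspForm ModularFormClass UpperHalfPlane
open ModularForm

namespace Fermat.Agent.S07

open scoped MatrixGroups in
/-- The index of `Γ₀(2)` in `SL(2, ℤ)` is at most `4` (it is in fact `3`). -/
theorem FA_S07_index_Gamma0_two_le : (CongruenceSubgroup.Gamma0 2).index ≤ 4 := by
  classical
  let φ : SL(2, ℤ) → ZMod 2 × ZMod 2 := fun a => ((a 0 0 : ZMod 2), (a 1 0 : ZMod 2))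
  let ψ : SL(2, ℤ) ⧸ CongruenceSubgroup.Gamma0 2 → ZMod 2 × ZMod 2 := fun q => φ q.out
  have hψ : Function.Injective ψ := by
    intro q q' h
    have h1 : ((q.out 0 0 : ℤ) : ZMod 2) = ((q'.out 0 0 : ℤ) : ZMod 2) := congrArg Prod.fst h
    have h2 : ((q.out 1 0 : ℤ) : ZMod 2) = ((q'.out 1 0 : ℤ) : ZMod 2) := congrArg Prod.snd h
    have key : (q.out)⁻¹ * q'.out ∈ CongruenceSubgroup.Gamma0 2 := by
      rw [CongruenceSubgroup.Gamma0_mem]
      have hinv := Matrix.SpecialLinearGroup.SL2_inv_expl q.out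
      have hmul : ((q.out)⁻¹ * q'.out : SL(2, ℤ)) 1 0
          = - (q.out 1 0) * (q'.out 0 0) + (q.out 0 0) * (q'.out 1 0) := by
        rw [Matrix.SpecialLinearGroup.coe_mul, hinv]
        rw [(Matrix.two_mul_expl _ _).2.2.1]
        simp
      rw [hmul]
      push_cast
      rw [h1, h2]
      ring
    have := (QuotientGroup.eq (s := CongruenceSubgroup.Gamma0 2)).mpr key
    rwa [QuotientGroup.out_eq', QuotientGroup.out_eq'] at this
  have hcard : Nat.card (SL(2, ℤ) ⧸ CongruenceSubgroup.Gamma0 2) ≤ Nat.card (ZMod 2 × ZMod 2) :=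
    Nat.card_le_card_of_injective ψ hψ
  have h4 : Nat.card (ZMod 2 × ZMod 2) = 4 := by
    simp
  rw [h4] at hcard
  exact hcard

theorem result (f : CuspForm (CongruenceSubgroup.Gamma0 2) 2) : f = 0 := by
  have hidx := FA_S07_index_Gamma0_two_le
  have h1 : (1 : ℝ) ∈ (CongruenceSubgroup.Gamma0 2 : Subgroup (GL (Fin 2) ℝ)).strictPeriods := by
    simp [CongruenceSubgroup.strictPeriods_Gamma0]
  have hF : (CuspForm.toModularFormₗ f : ModularForm (CongruenceSubgroup.Gamma0 2) 2) = 0 := by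
    apply ModularForm.sturm_bound_Gamma0 2
    intro n hn
    have hb : ((2 : ℤ) * ((CongruenceSubgroup.Gamma0 2).index : ℤ)).toNat / 12 = 0 := by
      have : ((2 : ℤ) * ((CongruenceSubgroup.Gamma0 2).index : ℤ)).toNat
          = 2 * (CongruenceSubgroup.Gamma0 2).index := by
        have : (2 : ℤ) * ((CongruenceSubgroup.Gamma0 2).index : ℤ)
            = ((2 * (CongruenceSubgroup.Gamma0 2).index : ℕ) : ℤ) := by push_cast; ring
        rw [this, Int.toNat_natCast]
      rw [this]
      omega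
    rw [hb] at hn
    have hn0 : n = 0 := Nat.le_zero.mp hn
    subst hn0
    exact CuspFormClass.qExpansion_coeff_zero f one_pos h1
  have hinj := CuspForm.toModularFormₗ_injective (Γ := (CongruenceSubgroup.Gamma0 2 : Subgroup (GL (Fin 2) ℝ))) (k := 2)
  apply hinj
  rw [hF, _root_.map_zero]

end Fermat.Agent.S07
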