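import Fermat.Statements.S08
import Fermat.Prelude.Thm_ModularForm_sturm_bound_Gamma0

set_option autoImplicit false
open WeierstrassCurve WeierstrassCurve.Affine WeierstrassCurve.Affine.Point
open CuspForm ModularFormClass UpperHalfPlane
open ModularForm

namespace Fermat.Agent.S08

open scoped MatrixGroups in
/-- `Γ₀(1)` is all of `SL(2, ℤ)`, so its index is `1`. -/
theorem FA_S08_index_Gamma0_one : (CongruenceSubgroup.Gamma0 1).index = 1 := by
  have htop : CongruenceSubgroup.Gamma0 1 = ⊤ := by
    ext g
    simp only [CongruenceSubgroup.Gamma0_mem, Subgroup.mem_top, iff_true]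
    exact Subsingleton.elim _ _
  rw [htop, Subgroup.index_top]

theorem result (f : CuspForm (CongruenceSubgroup.Gamma0 1) 2) : f = 0 := by
  have hidx := FA_S08_index_Gamma0_one
  have h1 : (1 : ℝ) ∈ (CongruenceSubgroup.Gamma0 1 : Subgroup (GL (Fin 2) ℝ)).strictPeriods := by
    simp [CongruenceSubgroup.strictPeriods_Gamma0]
  have hF : (CuspForm.toModularFormₗ f : ModularForm (CongruenceSubgroup.Gamma0 1) 2) = 0 := by
    apply ModularForm.sturm_bound_Gamma0 1
    intro n hn
    have hb : ((2 : ℤ) * ((CongruenceSubgroup.Gamma0 1).index : ℤ)).toNat / 12 = 0 := by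
      rw [hidx]
      norm_num
    rw [hb] at hn
    have hn0 : n = 0 := Nat.le_zero.mp hn
    subst hn0
    exact CuspFormClass.qExpansion_coeff_zero f one_pos h1
  have hinj := CuspForm.toModularFormₗ_injective (Γ := (CongruenceSubgroup.Gamma0 1 : Subgroup (GL (Fin 2) ℝ))) (k := 2)
  apply hinj
  rw [hF, _root_.map_zero]

end Fermat.Agent.S08
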