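import Fermat.Statements.S11
import Fermat.Agent.R.Final
import Fermat.Agent.R.CaseII
import Fermat.Agent.R.Hilbert92

set_option autoImplicit false
open WeierstrassCurve WeierstrassCurve.Affine WeierstrassCurve.Affine.Point
open CuspForm ModularFormClass UpperHalfPlane
open FreyPackage

namespace Fermat.Agent.S11

theorem result (P : FreyPackage) (hp : P.p = 11) : ¬ HasGaloisStableCofixedLine (K := AlgebraicClosure ℚ) ℚ P.freyCurve P.p := by
  exact fun _ => Fermat.Agent.R.FA_R_no_frey_small_of Fermat.Agent.R.FA_R_caseII
    Fermat.Agent.R.FA_R_hilbert92 P (by simp [hp])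

end Fermat.Agent.S11
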