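import Fermat.Statements.S16
import Fermat.Agent.S16.Final
import Fermat.Agent.S16.LShimFinal
import Fermat.Agent.S16.AlgUnit
import Fermat.Agent.S16.AlgT2Step
import Fermat.Agent.S16.AlgT2Glue
import Fermat.Agent.S16.E3bFinal

set_option autoImplicit false
open ModularCurve CuspForm
open ModularCurve

namespace Fermat.Agent.S16

theorem result
    (p : ℕ) [Fact p.Prime] :
    Nat.card (↥(heckeLatticeAlgebra p ∅) ⧸
        Ideal.map ((latticeRestrictHom p ∅).toRingHom.comp (heckeEvalForms p 2))
          (eisensteinIdeal p)) =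
      eisensteinNumerator p := by
  exact FA_S16.FA_S16_final_of FA_S16.FA_S16_LS_period FA_S16.FA_S16_algUnit
    (FA_S16.FA_S16_T2_ofStep12 FA_S16.FA_S16_T2_step12)
    (FA_S16.FA_S16_E3b_of FA_S16.FA_S16_an) p

end Fermat.Agent.S16
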