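import Fermat.Statements.S18
import Fermat.Agent.S18.CuspWire
import Fermat.Agent.S18.CuspBridge
import Fermat.Agent.S18.FinInstFinal

set_option autoImplicit false
open ModularCurve

namespace Fermat.Agent.S18

theorem result (N : ℕ) [NeZero N] {ℓ : ℕ}
    [Fact ℓ.Prime] (hℓN : ¬ ℓ ∣ N) (A : ValuationSubring (AlgebraicClosure ℚ)) (hA : A.LiesOverPrime ℓ)
    (h : ModularCurve.ReductionInputsModL A N) (m : ℕ) (hm : ¬ ℓ ∣ m) (z : ModularCurve.JZero N)
    (hmz : m • z = 0) (hz : ModularCurve.reductionModL A N z = 0) :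
    z = 0 := by
  have hℓ : ℓ.Prime := Fact.out
  refine FA_S18_WIRE_final N hℓN A hA ?_ ?_ h m hm z hmz hz
  · intro M hM hℓM n _ hnM hℓn hR p hp hpℓ x hx
    have hMn : M ∣ n := by rw [hnM]; exact Dvd.intro_left N rfl
    have h49 : M = 4 ∨ M = 9 := by
      rcases hM with ⟨h4, _⟩ | ⟨h9, _⟩
      · exact Or.inl h4
      · exact Or.inr h9
    haveI : NeZero M := ⟨by rcases h49 with h | h <;> rw [h] <;> norm_num⟩
    exact FA_S18_FI_icl_fin A M n hMn h49 hℓ hA hℓn hR p hp.pos x hx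
  · intro M hM hℓM n _ hnM hℓn hR p hp hpℓ
    have hn2 : 2 ≤ n := by
      have hN : 1 ≤ N := NeZero.pos N
      have hM4 : 4 ≤ M := by
        rcases hM with ⟨h4, _⟩ | ⟨h9, _⟩
        · rw [h4]
        · rw [h9]; norm_num
      rw [hnM]
      nlinarith
    exact FA_S18_CUBR_targetBQ A n ℓ hℓ hA hℓn hn2 hR p hp.pos _

end Fermat.Agent.S18
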