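import Fermat.Statements.S28
import Fermat.Agent.S28.Final
import Fermat.Agent.S28.UnitFinal

/-!
# S28 (Igusa): the base change of the Igusa model of `X₀(N)` over `ℤ_(ℓ)` to any field of
characteristic `ℓ` is integral (`ℓ ∤ N`).

Route (see `NOTES/plan/S28.md`): the wrapper `FA_S28_wrap` reduces to the three chart algebras
(`FA_S28_Target_Alg`), these to a degree statement (`FA_S28_Target_Deg`: `ψ(N)` elements of
`ℚ(j(q^d) : d ∣ N) ∩ ℤ((q))` independent mod `ℓ` over `𝔽_ℓ[j]`), which follows from
the degree bound in characteristic `0` (S24) and Igusa's theorem in characteristic `ℓ`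
(induction on the level; prime level by the `Δ`-unit argument).
-/

set_option autoImplicit false
open AlgebraicGeometry CategoryTheory CategoryTheory.Limits ModularCurve ModularCurve.IgusaScheme
noncomputable section
set_option autoImplicit false
open ModularCurve ModularCurve.IgusaScheme

namespace Fermat.Agent.S28

set_option maxHeartbeats 4000000 in
set_option synthInstance.maxHeartbeats 400000 in
theorem result
    (N : ℕ) [NeZero N] (ℓ : ℕ) [Fact ℓ.Prime] (hℓN : ¬ ℓ ∣ N)
    (K : Type) [Field K] [CharP K ℓ] [Algebra ↥(GaloisRep.ratLocalizedAt ℓ) K] :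
    IsIntegral ↑(pullback (igusaTo N ℓ)
      (Spec.map (CommRingCat.ofHom (algebraMap ↥(GaloisRep.ratLocalizedAt ℓ) K)))) := by
  exact FA_S28_final_of_unit N ℓ hℓN (fun p _ hp hpl => FA_S28_unit p ℓ hp hpl) K

end Fermat.Agent.S28
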