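import Fermat.Statements.S42
import Fermat.Agent.S29.FinalAll

set_option autoImplicit false
open FreyPackage

namespace Fermat.Agent.S42

theorem result (P : FreyPackage) :
    ∀ M : ℕ, 0 < M → P.EigenformResidualAttachmentAt M := by
  intro M hM
  exact Fermat.Agent.S29.FA_S29_S42_of_module P M hM
    (Fermat.Agent.S29.FA_S29_FIN_all M P.p hM.ne' P.pp)

end Fermat.Agent.S42
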