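import Fermat.Statements.S49
import Fermat.Agent.S49.Alg
import Fermat.Agent.S49.Integral
import Fermat.Agent.S49.Normalized

set_option autoImplicit false
open CuspForm EisensteinWeightOne CongruenceSubgroup ModularFormClass
open FLT FLT.AbstractIntegralStructure

namespace Fermat.Agent.S49

theorem result
    {N : ℕ} [NeZero N] (h : CuspForm.HasIntegralBasis N) {a : ℕ → ℤ}
    (heig : FormalHecke.IsEigensystem
      (fun ℓ => if ℓ ∣ N then 0 else ((chiNegThree ℓ : ℤ) : ℤ)) a)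
    (hreal : CuspForm.IsLatticeRealized N a) :
    ∃ (f : CuspForm (Gamma0 N) 2) (_ : f.IsNormalizedEigenform)
      (𝔪' : Ideal (integralClosure ℤ ℂ)), 𝔪'.IsMaximal ∧
      ((3 : ℕ) : integralClosure ℤ ℂ) ∈ 𝔪' ∧
      ∀ (ℓ : ℕ) (_ : ℓ.Prime) (_ : ¬ ℓ ∣ N),
        ∃ c : integralClosure ℤ ℂ, (c : ℂ) = ModularFormClass.qCoeff f ℓ ∧
          c - (a ℓ : integralClosure ℤ ℂ) ∈ 𝔪' := by
  obtain ⟨f₀, -, af, haf, hbr⟩ := hreal
  have hmod : ∀ n, (3 : ℤ) ∣ af n - a n := fun n => by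
    have := dvd_add (hbr n) (FA_S49_bridge_coeff a n)
    simpa using this
  have := FA_S49_finiteDimensional N 2
  obtain ⟨χ, v, hv, hχ, hker⟩ := FA_S49_exists_eigen_ker_le (FA_S49_rho N)
    (RingHom.ker (FA_S49_theta a)) (FA_S49_ker_rho_le heig haf hmod)
  have hint : ∀ t, IsIntegral ℤ (χ t) := fun t =>
    FA_S49_isIntegral_eigenvalue h (FA_S49_rho_mem t) hv (hχ t)
  obtain ⟨𝔪', hmax, h𝔪'⟩ := FA_S49_lying_over χ hint (RingHom.ker (FA_S49_theta a)) hker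
  obtain ⟨g, hg, hgl⟩ := FA_S49_normalized hv (lam := fun ℓ => χ (MvPolynomial.X ℓ))
    (fun ℓ => hχ _)
  have hχC : ∀ z : ℤ, χ (MvPolynomial.C z) = (z : ℂ) := fun z =>
    eq_intCast (χ.comp (MvPolynomial.C : ℤ →+* ModularCurve.HeckeAlg)) z
  refine ⟨g, hg, 𝔪', hmax, ?_, ?_⟩
  · obtain ⟨c, hc, hcm⟩ := h𝔪' (MvPolynomial.C (3 : ℤ)) (FA_S49_C_three_mem_ker_theta a)
    have : c = ((3 : ℕ) : integralClosure ℤ ℂ) := by
      apply Subtype.ext
      rw [hc, hχC]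
      norm_num
      rfl
    rwa [this] at hcm
  · intro ℓ hℓ _
    let P : Nat.Primes := ⟨ℓ, hℓ⟩
    obtain ⟨c, hc, hcm⟩ := h𝔪' (MvPolynomial.X P - MvPolynomial.C (a ℓ) : ModularCurve.HeckeAlg)
      (FA_S49_X_sub_C_mem_ker_theta a P)
    refine ⟨⟨χ (MvPolynomial.X P), hint _⟩, (hgl P).symm, ?_⟩
    have : c = (⟨χ (MvPolynomial.X P), hint _⟩ : integralClosure ℤ ℂ) -
        (a ℓ : integralClosure ℤ ℂ) := by
      apply Subtype.ext
      rw [hc, map_sub, hχC]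
      push_cast
      rfl
    rwa [this] at hcm

end Fermat.Agent.S49
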