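import Fermat.Statements.S53
import Fermat.Agent.S53.AbsRepr
import Fermat.Agent.S53.Assemble
import Fermat.Agent.S53.Tangent
import Fermat.Agent.S53.Glue

/-!
# S53: existence of the universal deformation ring

Assembly of
* `FA_S53.FA_S53_abstract` (abstract representability of rigidified functors, part A),
* `FA_S53_Glue_isSlice` + `FA_S53_tangent` (the functor of normalised `𝒟`-lifts is a slice),
* `FA_S53_exists_gauge` (gauge data from absolute irreducibility, Burnside),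
* `FA_S53_assemble` (a representing object is a universal deformation ring).
-/

set_option autoImplicit false
set_option autoImplicit false
open GaloisRep

namespace Fermat.Agent.S53

theorem result
    (𝒪 : Type) [CommRing 𝒪] [IsDomain 𝒪] [IsDiscreteValuationRing 𝒪]
    [IsAdicComplete (IsLocalRing.maximalIdeal 𝒪) 𝒪] [Finite (IsLocalRing.ResidueField 𝒪)]
    (ρbar : ResidualGaloisRep (IsLocalRing.ResidueField 𝒪))
    (𝒟 : ∀ ⦃A : Type⦄ [CommRing A] [IsLocalRing A] [Algebra 𝒪 A], GaloisRepAdic A → Prop)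
    (habs : ρbar.IsAbsolutelyIrreducible)
    (h𝒟 : GaloisRep.IsDeformationCondition 𝒪 𝒟)
    (hbar : 𝒟 (GaloisRepAdic.ofResidualGaloisRep ρbar))
    (hfin : GaloisRep.TangentFinite 𝒪 ρbar 𝒟) :
    Nonempty (GaloisRep.DeformationRingData 𝒪 ρbar 𝒟) := by
  obtain ⟨bbar⟩ := FA_S53_exists_basis_res ρbar
  have hex : ∀ (σ : AlgebraicClosure ℚ ≃ₐ[ℚ] AlgebraicClosure ℚ) (i j : Fin 2),
      ∃ x : 𝒪, IsLocalRing.residue 𝒪 x = FA_S53_matOfRes ρbar bbar σ i j :=
    fun σ i j => IsLocalRing.residue_surjective _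
  choose c hc using hex
  obtain ⟨Γ⟩ := FA_S53_exists_gauge ρbar habs bbar (fun σ => Matrix.of (c σ))
    (fun σ i j => hc σ i j)
  have htan := FA_S53_tangent ρbar 𝒟 bbar (fun σ => Matrix.of (c σ)) (fun σ i j => hc σ i j) Γ hfin
  have hslice : FA_S53_IsSlice 𝒪 FA_S53_X (FA_S53_N 𝒪 𝒟 (fun σ => Matrix.of (c σ)) Γ)
      (FA_S53_f₀ ρbar bbar) :=
    FA_S53_Glue_isSlice Γ h𝒟 ρbar bbar (fun σ i j => hc σ i j) hbar htan
  have hrep := FA_S53.FA_S53_abstract 𝒪 FA_S53_X _ _ hslice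
  exact FA_S53_assemble 𝒪 ρbar 𝒟 habs h𝒟 bbar _ (fun σ i j => hc σ i j) Γ _
    (FA_S53_N_isModel 𝒟 Γ) hrep

end Fermat.Agent.S53
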